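import Fermat.Agent.UnitRankOneEuclidean.Closing
import Mathlib.NumberTheory.NumberField.InfinitePlace.TotallyRealComplex

/-!
# Norm-Euclidean fields of unit rank one

Quadratic fields of positive discriminant, cubic fields of negative discriminant and totally complex
quartic fields: finitely many are norm-Euclidean.
-/

set_option autoImplicit false
set_option linter.style.haveILetI false
set_option linter.unusedSectionVars false
set_option exponentiation.threshold 320

noncomputable section

namespace FA.UnitRankOneEuclidean

open NumberField NumberField.InfinitePlace Module FA.LenstraEuclid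

variable {K : Type*} [Field K] [NumberField K]

theorem card_places_eq : Fintype.card (InfinitePlace K) = nrRealPlaces K + nrComplexPlaces K := by
  classical
  rw [nrRealPlaces, nrComplexPlaces, ← Fintype.card_sum]
  refine Fintype.card_congr ((Equiv.sumCompl IsReal).symm.trans
    (Equiv.sumCongr (Equiv.refl _) (Equiv.subtypeEquivRight fun w => ?_)))
  exact not_isReal_iff_isComplex

theorem card_places_of_cubic (hK : finrank ℚ K = 3) (hd : discr K < 0) :
    Fintype.card (InfinitePlace K) = 2 := by
  have h := card_add_two_mul_card_eq_rank (K := K)
  have hs := sign_discr K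
  rw [Int.sign_eq_neg_one_of_neg hd] at hs
  have : nrComplexPlaces K ≠ 0 := fun e => by rw [e, pow_zero] at hs; omega
  rw [card_places_eq]
  omega

theorem card_places_of_quartic (hK : finrank ℚ K = 4) [IsTotallyComplex K] :
    Fintype.card (InfinitePlace K) = 2 := by
  have h := card_add_two_mul_card_eq_rank (K := K)
  have := (nrRealPlaces_eq_zero_iff (K := K)).2 inferInstance
  rw [card_places_eq]
  omega

theorem abs_discr_le (h : Fintype.card (InfinitePlace K) = 2) (hE : IsNormEuclideanField K) :
    |discr K| ≤ 2 ^ 306 :=
  (exists_twoPlaces K h).some.abs_discr_le_of_normEuclidean hE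

theorem finite_normEuclidean (A : Type*) [Field A] [CharZero A] :
    {F : {F : IntermediateField ℚ A // FiniteDimensional ℚ F} |
      haveI : NumberField F.1 := @NumberField.mk _ _ inferInstance F.2
      Fintype.card (InfinitePlace F.1) = 2 ∧ IsNormEuclideanField F.1}.Finite := by
  refine (NumberField.finite_of_discr_bdd A (2 ^ 306)).subset fun F hF => ?_
  haveI : NumberField F.1 := @NumberField.mk _ _ inferInstance F.2
  have h := abs_discr_le hF.1 hF.2
  simpa using h

end FA.UnitRankOneEuclidean
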