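import Mathlib.Analysis.Complex.Basic
import Mathlib.Algebra.Order.Floor.Ring
import Mathlib.Topology.Order.MonotoneConvergence
import Mathlib.Tactic.Linarith

/-!
# Avoiding the integers along sparse complex frequencies

If at most `512` frequencies have absolute value in each dyadic range above one, some complex `β`
has `|Re (c β) - n| ≥ δ` for every frequency `c` and integer `n`: nested squares, fifteen ranges at
a time, each frequency spoiling at most three cells in every row or in every column.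
-/

set_option autoImplicit false

noncomputable section

namespace FA.UnitRankOneEuclidean

open Finset

/-- At most `512` numbers of the set lie in every dyadic range from one on. -/
def Sparse (C : Set ℂ) : Prop :=
  ∀ j : ℕ, ∃ F : Finset ℂ, F.card ≤ 512 ∧
    ∀ c ∈ C, (2 : ℝ) ^ j ≤ ‖c‖ → ‖c‖ < 2 ^ (j + 1) → c ∈ F

/-- The cells along a side. -/
@[irreducible] def gridN : ℕ := 32768

theorem gridN_eq : gridN = 32768 := by rw [gridN]

/-- The margin. -/
def margin : ℝ := 1 / (16 * 32768 ^ 2)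

/-- The side of the square at step `t`. -/
def side (t : ℕ) : ℝ := 1 / (4 * 32768 ^ (t + 1))

theorem side_pos (t : ℕ) : 0 < side t := by rw [side]; positivity

theorem side_succ (t : ℕ) : side (t + 1) * 32768 = side t := by
  rw [side, side, pow_succ _ (t + 1)]
  field_simp

/-- The point `z` lies in the `i`-th interval. -/
def InCell (t : ℕ) (l : ℝ) (i : ℕ) (z : ℝ) : Prop :=
  l + i * side (t + 1) ≤ z ∧ z ≤ l + (i + 1) * side (t + 1)

/-- The cell is spoiled by the form `r x + q y`. -/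
def Spoiled (t : ℕ) (r q l m : ℝ) (k : ℕ × ℕ) : Prop :=
  ∃ (x y : ℝ) (n : ℤ), InCell t l k.1 x ∧ InCell t m k.2 y ∧ |r * x + q * y - n| < margin

theorem spoiled_close {t : ℕ} {r q l m : ℝ} (h1 : (32768 : ℝ) ^ t ≤ |r| + |q|)
    (h2 : |r| ≤ 32768 * 32768 ^ t) (hqr : |q| ≤ |r|) {i i' j : ℕ} (hi : i < gridN)
    (hi' : i' < gridN) (h : Spoiled t r q l m (i, j)) (h' : Spoiled t r q l m (i', j)) :
    i' ≤ i + 2 := by
  obtain ⟨x, y, n, ⟨hx1, hx2⟩, ⟨hy1, hy2⟩, hn⟩ := h
  obtain ⟨x', y', n', ⟨hx1', hx2'⟩, ⟨hy1', hy2'⟩, hn'⟩ := h'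
  obtain ⟨L, hL⟩ : ∃ L, L = side (t + 1) := ⟨_, rfl⟩
  obtain ⟨T, hT⟩ : ∃ T, T = (32768 : ℝ) ^ t := ⟨_, rfl⟩
  rw [← hL] at hx1 hx2 hy1 hy2 hx1' hx2' hy1' hy2'
  rw [← hT] at h1 h2
  have hT0 : 0 < T := hT ▸ by positivity
  have hL0 : 0 < L := hL ▸ side_pos _
  have hm : margin = 1 / (16 * 32768 ^ 2) := rfl
  have hm0 : 0 < margin := by rw [hm]; positivity
  have hLT : T * L = 4 * margin := by
    rw [hL, hT, hm, side, pow_succ, pow_succ]
    field_simp
    norm_num
  rw [gridN_eq] at hi hi'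
  have hi1 : (i : ℝ) + 1 ≤ 32768 := by exact_mod_cast hi
  have hi1' : (i' : ℝ) + 1 ≤ 32768 := by exact_mod_cast hi'
  have hdx : |x' - x| ≤ 32768 * L := by
    rw [abs_le]
    constructor <;> nlinarith [Nat.cast_nonneg (α := ℝ) i, Nat.cast_nonneg (α := ℝ) i']
  have hdy : |y' - y| ≤ L := by
    rw [abs_le]
    constructor <;> linarith
  have hr0 : 0 ≤ |r| := abs_nonneg r
  have hry : |q * (y' - y)| ≤ |r| * L := by
    rw [abs_mul]
    exact mul_le_mul hqr hdy (abs_nonneg _) hr0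
  have hrx : |r * (x' - x)| ≤ |r| * (32768 * L) := by
    rw [abs_mul]
    exact mul_le_mul_of_nonneg_left hdx hr0
  have hrL : |r| * L ≤ 32768 * (4 * margin) := by
    rw [← hLT, ← mul_assoc]
    exact mul_le_mul_of_nonneg_right h2 hL0.le
  rw [abs_lt] at hn hn'
  have hnn : n' = n := by
    have hm' : 2 * margin + 32769 * (32768 * (4 * margin)) < 1 := by rw [hm]; norm_num
    have hy' := abs_le.1 hry
    have hx' := abs_le.1 hrx
    have h3 : (n' : ℝ) < n + 1 := by linarith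
    have h4 : (n : ℝ) < n' + 1 := by linarith
    have h3' : n' < n + 1 := by exact_mod_cast h3
    have h4' : n < n' + 1 := by exact_mod_cast h4
    omega
  subst hnn
  by_contra hlt
  have h5 : (i : ℝ) + 3 ≤ i' := by exact_mod_cast (show i + 3 ≤ i' by omega)
  have h6 : 2 * L ≤ x' - x := by nlinarith
  have h7 : |r| * (2 * L) ≤ |r * (x' - x)| := by
    rw [abs_mul, abs_of_pos (show 0 < x' - x by linarith)]
    exact mul_le_mul_of_nonneg_left h6 hr0
  have h8 : |r * (x' - x)| < 2 * margin + |q * (y' - y)| := by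
    have := abs_le.1 (le_refl |q * (y' - y)|)
    rw [abs_lt]
    constructor <;> linarith
  have h9 : T ≤ 2 * |r| := by linarith
  have := mul_le_mul_of_nonneg_right h9 hL0.le
  linarith

theorem card_spoiled_le {t : ℕ} {r q : ℝ} (l m : ℝ) (h1 : (32768 : ℝ) ^ t ≤ |r| + |q|)
    (h2 : |r| ≤ 32768 * 32768 ^ t) (hqr : |q| ≤ |r|) (S : Finset (ℕ × ℕ))
    (hS : ∀ k ∈ S, k ∈ range gridN ×ˢ range gridN ∧ Spoiled t r q l m k) :
    S.card ≤ 3 * gridN := by
  classical
  refine (card_le_mul_card_image (f := Prod.snd) S 3 fun j _ => ?_).trans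
    (Nat.mul_le_mul_left 3 ((card_le_card (t := range gridN) fun j hj => ?_).trans
      (card_range _).le))
  · rcases (S.filter fun k => k.2 = j).eq_empty_or_nonempty with h0 | hne
    · simp [h0]
    obtain ⟨i₀, hi₀, hmin⟩ := exists_min_image _ (fun k : ℕ × ℕ => k.1) hne
    refine (card_le_card_of_injOn (t := Icc i₀.1 (i₀.1 + 2)) (fun k => k.1) (fun k hk => ?_)
      fun k hk k' hk' h => ?_).trans (by simp; omega)
    · rw [mem_coe] at hk
      obtain ⟨hkS, hkj⟩ := mem_filter.1 hk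
      obtain ⟨h₀S, h₀j⟩ := mem_filter.1 hi₀
      obtain ⟨hk1, hk2⟩ := hS k hkS
      obtain ⟨h₀1, h₀2⟩ := hS i₀ h₀S
      rw [mem_product, mem_range, mem_range] at hk1 h₀1
      rw [show k = (k.1, j) from Prod.ext rfl hkj] at hk2
      rw [show i₀ = (i₀.1, j) from Prod.ext rfl h₀j] at h₀2
      exact mem_Icc.2 ⟨hmin k hk, spoiled_close h1 h2 hqr h₀1.1 hk1.1 h₀2 hk2⟩
    · simp only [mem_coe, mem_filter] at hk hk'
      exact Prod.ext h (hk.2.trans hk'.2.symm)
  · obtain ⟨k, hk, rfl⟩ := mem_image.1 hj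
    exact (mem_product.1 (hS k hk).1).2

theorem exists_next {C : Set ℂ} (hC : Sparse C) (t : ℕ) (p : ℝ × ℝ) : ∃ p' : ℝ × ℝ,
    (p.1 ≤ p'.1 ∧ p'.1 + side (t + 1) ≤ p.1 + side t) ∧
    (p.2 ≤ p'.2 ∧ p'.2 + side (t + 1) ≤ p.2 + side t) ∧
      ∀ c ∈ C, (32768 : ℝ) ^ t ≤ ‖c‖ → ‖c‖ < 32768 ^ (t + 1) → ∀ x y : ℝ,
        p'.1 ≤ x → x ≤ p'.1 + side (t + 1) → p'.2 ≤ y → y ≤ p'.2 + side (t + 1) →
          ∀ n : ℤ, margin ≤ |c.re * x + -c.im * y - n| := by
  classical
  choose G hG1 hG2 using hC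
  obtain ⟨F, hF⟩ : ∃ F : Finset ℂ, F = ((Ico (15 * t) (15 * t + 15)).biUnion G).filter
      fun c => (32768 : ℝ) ^ t ≤ ‖c‖ ∧ ‖c‖ < 32768 ^ (t + 1) := ⟨_, rfl⟩
  have hFc : F.card ≤ 15 * 512 := by
    rw [hF]
    refine (card_filter_le _ _).trans ((card_biUnion_le_card_mul _ _ 512 fun j _ => hG1 j).trans
      (le_of_eq ?_))
    rw [Nat.card_Ico, Nat.add_sub_cancel_left]
  have hmem : ∀ c ∈ C, (32768 : ℝ) ^ t ≤ ‖c‖ → ‖c‖ < 32768 ^ (t + 1) → c ∈ F := by
    intro c hc h1 h2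
    obtain ⟨j, hj1, hj2⟩ := exists_nat_pow_near ((one_le_pow₀ (by norm_num)).trans h1) one_lt_two
    have hj : j ∈ Ico (15 * t) (15 * t + 15) := by
      rw [mem_Ico]
      constructor
      · by_contra hlt
        have := pow_le_pow_right₀ (one_le_two (α := ℝ)) (show j + 1 ≤ 15 * t by omega)
        rw [pow_mul, show (2 : ℝ) ^ 15 = 32768 by norm_num] at this
        linarith
      · by_contra hlt
        have := pow_le_pow_right₀ (one_le_two (α := ℝ)) (show 15 * (t + 1) ≤ j by omega)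
        rw [pow_mul, show (2 : ℝ) ^ 15 = 32768 by norm_num] at this
        linarith
    rw [hF, mem_filter, mem_biUnion]
    exact ⟨⟨j, hj, hG2 j c hc hj1 hj2⟩, h1, h2⟩
  let bad : ℂ → Finset (ℕ × ℕ) := fun c =>
    (range gridN ×ˢ range gridN).filter fun k => Spoiled t c.re (-c.im) p.1 p.2 k
  have hbad : (F.biUnion bad).card ≤ 15 * 512 * (3 * gridN) := by
    refine (card_biUnion_le_card_mul _ _ (3 * gridN) fun c hc => ?_).trans
      (Nat.mul_le_mul_right _ hFc)
    rw [hF, mem_filter] at hc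
    have hlo := hc.2.1.trans (Complex.norm_le_abs_re_add_abs_im c)
    have hhi := hc.2.2.le.trans_eq (pow_succ' (32768 : ℝ) t)
    have hre := (Complex.abs_re_le_norm c).trans hhi
    have him := (Complex.abs_im_le_norm c).trans hhi
    rcases le_total |(-c.im)| |c.re| with h | h
    · exact card_spoiled_le (t := t) p.1 p.2 (by rwa [abs_neg]) hre h _ fun k hk => mem_filter.1 hk
    · refine le_of_eq_of_le (card_image_of_injective (bad c) Prod.swap_injective).symm
        (card_spoiled_le (t := t) (r := -c.im) (q := c.re) p.2 p.1 (by rw [abs_neg]; linarith)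
          (by rwa [abs_neg]) h _ fun k hk => ?_)
      obtain ⟨k', hk', rfl⟩ := mem_image.1 hk
      obtain ⟨h1, x, y, n, hx, hy, hn⟩ := mem_filter.1 hk'
      refine ⟨mem_product.2 ⟨(mem_product.1 h1).2, (mem_product.1 h1).1⟩, y, x, n, hy, hx, ?_⟩
      rwa [add_comm (-c.im * y)]
  obtain ⟨k, hk, hnk⟩ := exists_mem_notMem_of_card_lt_card
    (s := F.biUnion bad) (t := range gridN ×ˢ range gridN)
    (by
      rw [card_product, card_range]
      exact hbad.trans_lt (by rw [gridN_eq]; norm_num))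
  have hk' := mem_product.1 hk
  rw [mem_range, mem_range, gridN_eq] at hk'
  have hk1 : (k.1 : ℝ) + 1 ≤ 32768 := by exact_mod_cast hk'.1
  have hk2 : (k.2 : ℝ) + 1 ≤ 32768 := by exact_mod_cast hk'.2
  have hL := side_pos (t + 1)
  have hs := side_succ t
  refine ⟨(p.1 + k.1 * side (t + 1), p.2 + k.2 * side (t + 1)),
    ⟨le_add_of_nonneg_right (by positivity), ?_⟩, ⟨le_add_of_nonneg_right (by positivity), ?_⟩, ?_⟩
  · have := mul_le_mul_of_nonneg_right hk1 hL.le
    simp only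
    linarith
  · have := mul_le_mul_of_nonneg_right hk2 hL.le
    simp only
    linarith
  · intro c hc h1 h2 x y hx1 hx2 hy1 hy2 n
    simp only at hx1 hx2 hy1 hy2
    by_contra! hlt
    refine hnk (mem_biUnion.2 ⟨c, hmem c hc h1 h2, mem_filter.2
      ⟨hk, x, y, n, ⟨hx1, ?_⟩, ⟨hy1, ?_⟩, hlt⟩⟩)
    · linarith
    · linarith

/-- The nested squares. -/
def nest {C : Set ℂ} (hC : Sparse C) : ℕ → ℝ × ℝ
  | 0 => (0, 0)
  | t + 1 => (exists_next hC t (nest hC t)).choose

theorem exists_limit (f : ℕ → ℝ)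
    (h : ∀ t, f t ≤ f (t + 1) ∧ f (t + 1) + side (t + 1) ≤ f t + side t) :
    ∃ z, ∀ t, f t ≤ z ∧ z ≤ f t + side t := by
  have hmono : Monotone f := monotone_nat_of_le_succ fun t => (h t).1
  have hanti : Antitone fun t => f t + side t := antitone_nat_of_succ_le fun t => (h t).2
  have hbd : ∀ s t, f s ≤ f t + side t := fun s t =>
    (hmono (le_max_left s t)).trans ((le_add_of_nonneg_right (side_pos _).le).trans
      (hanti (le_max_right s t)))
  exact ⟨⨆ s, f s, fun t => ⟨le_ciSup ⟨f 0 + side 0, fun _ ⟨s, hs⟩ => hs ▸ hbd s 0⟩ t,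
    ciSup_le fun s => hbd s t⟩⟩

theorem exists_avoid {C : Set ℂ} (hC : Sparse C) (h1 : ∀ c ∈ C, 1 ≤ ‖c‖) :
    ∃ β : ℂ, ∀ c ∈ C, ∀ n : ℤ, margin ≤ |(c * β).re - n| := by
  have hl := fun t => (exists_next hC t (nest hC t)).choose_spec
  obtain ⟨x, hx⟩ := exists_limit (fun t => (nest hC t).1) fun t => (hl t).1
  obtain ⟨y, hy⟩ := exists_limit (fun t => (nest hC t).2) fun t => (hl t).2.1
  refine ⟨⟨x, y⟩, fun c hc n => ?_⟩
  obtain ⟨t, ht1, ht2⟩ := exists_nat_pow_near (h1 c hc) (show (1 : ℝ) < 32768 by norm_num)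
  rw [Complex.mul_re, show c.re * x - c.im * y = c.re * x + -c.im * y by ring]
  exact (hl t).2.2 c hc ht1 ht2 x y (hx (t + 1)).1 (hx (t + 1)).2 (hy (t + 1)).1 (hy (t + 1)).2 n

end FA.UnitRankOneEuclidean
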