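import Mathlib.NumberTheory.NumberField.Units.DirichletTheorem
import Mathlib.NumberTheory.NumberField.Discriminant.Different
import Mathlib.NumberTheory.NumberField.CanonicalEmbedding.ConvexBody
import Mathlib.Topology.MetricSpace.Sequences

/-!
# Fields with two infinite places

The two embeddings, the trace and the norm through them, short vectors of the inverse different,
a unit large at the first place, and a bound for the distance to the integers of the field.
-/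

set_option autoImplicit false
set_option linter.style.haveILetI false
set_option linter.unusedSectionVars false

noncomputable section

namespace FA.UnitRankOneEuclidean

open NumberField NumberField.InfinitePlace Module Finset
open scoped nonZeroDivisors NNReal ENNReal

variable (K : Type*) [Field K] [NumberField K]

/-- The two infinite places of a field. -/
structure TwoPlaces where
  /-- The first place. -/
  w₁ : InfinitePlace K
  /-- The second place. -/
  w₂ : InfinitePlace K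
  ne : w₁ ≠ w₂
  all : ∀ w, w = w₁ ∨ w = w₂

theorem exists_twoPlaces (h : Fintype.card (InfinitePlace K) = 2) : Nonempty (TwoPlaces K) := by
  classical
  obtain ⟨a, b, hab, huniv⟩ := card_eq_two.1 (card_univ.trans h)
  exact ⟨⟨a, b, hab, fun w => by simpa [huniv] using mem_univ w⟩⟩

variable {K}

namespace TwoPlaces

variable (P : TwoPlaces K)

theorem univ_eq [DecidableEq (InfinitePlace K)] :
    (univ : Finset (InfinitePlace K)) = {P.w₁, P.w₂} :=
  Finset.ext fun w => by simpa using P.all w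

/-- The pair of embeddings. -/
def emb : K →+* ℂ × ℂ := RingHom.prod P.w₁.embedding P.w₂.embedding

theorem norm_emb_fst (x : K) : ‖(P.emb x).1‖ = P.w₁ x := norm_embedding_eq _ _

theorem norm_emb_snd (x : K) : ‖(P.emb x).2‖ = P.w₂ x := norm_embedding_eq _ _

/-- The linear form giving the trace. -/
def tr (Q : ℂ × ℂ) : ℝ := mult P.w₁ * Q.1.re + mult P.w₂ * Q.2.re

theorem tr_add (Q R : ℂ × ℂ) : P.tr (Q + R) = P.tr Q + P.tr R := by
  simp only [tr, Prod.fst_add, Prod.snd_add, Complex.add_re]; ring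

theorem mult_le_two (w : InfinitePlace K) : (mult w : ℝ) ≤ 2 := by
  rw [mult]; split_ifs <;> norm_num

theorem abs_tr_mul_le (Q R : ℂ × ℂ) :
    |P.tr (Q * R)| ≤ 2 * (‖Q.1‖ * ‖R.1‖ + ‖Q.2‖ * ‖R.2‖) := by
  rw [tr, mul_add 2]
  refine (abs_add_le _ _).trans (add_le_add ?_ ?_) <;> rw [abs_mul, Nat.abs_cast] <;>
    refine mul_le_mul (mult_le_two _) ((Complex.abs_re_le_norm _).trans (le_of_eq ?_))
      (abs_nonneg _) zero_le_two <;>
    simp

theorem tr_emb (x : K) : P.tr (P.emb x) = ((Algebra.trace ℚ K x : ℚ) : ℝ) := by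
  classical
  have h := trace_eq_sum_embeddings (K := ℚ) (L := K) ℂ (x := x)
  rw [eq_ratCast] at h
  have h1 : (∑ σ : K →ₐ[ℚ] ℂ, σ x).re = ∑ φ : K →+* ℂ, (φ x).re := by
    rw [Complex.re_sum]
    exact Fintype.sum_equiv (RingHom.equivRatAlgHom K ℂ).symm _ _ fun σ => rfl
  have h2 : ∀ φ : K →+* ℂ, (φ x).re = ((InfinitePlace.mk φ).embedding x).re := fun φ => by
    rcases mk_eq_iff.1 (mk_embedding (InfinitePlace.mk φ)) with e | e
    · rw [e]
    · conv_lhs => rw [← e]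
      rw [ComplexEmbedding.conjugate_coe_eq, Complex.conj_re]
  rw [← Complex.ratCast_re, h, h1, sum_congr rfl fun φ _ => h2 φ,
    ← sum_fiberwise' univ InfinitePlace.mk fun w => (w.embedding x).re, P.univ_eq, sum_pair P.ne]
  simp only [tr, sum_const, card_filter_mk_eq, nsmul_eq_mul]
  rfl

theorem norm_eq (x : K) :
    P.w₁ x ^ mult P.w₁ * P.w₂ x ^ mult P.w₂ = |((Algebra.norm ℚ x : ℚ) : ℝ)| := by
  classical
  rw [← Rat.cast_abs, ← prod_eq_abs_norm, P.univ_eq, prod_pair P.ne]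

theorem mult_add : mult P.w₁ + mult P.w₂ = finrank ℚ K := by
  classical
  rw [← sum_mult_eq, P.univ_eq, sum_pair P.ne]

theorem finrank_le_four (P : TwoPlaces K) : finrank ℚ K ≤ 4 := by
  have h : ∀ w : InfinitePlace K, mult w ≤ 2 := fun w => by rw [mult]; split_ifs <;> norm_num
  linarith [P.mult_add, h P.w₁, h P.w₂]

theorem one_le_discr_abs : (1 : ℝ) ≤ |(discr K : ℝ)| := by
  rw [← Int.cast_abs, ← Int.cast_one, Int.cast_le]
  exact Int.one_le_abs (discr_ne_zero K)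

variable (K) in
/-- The inverse different. -/
def dualIdeal : FractionalIdeal (𝓞 K)⁰ K := FractionalIdeal.dual ℤ ℚ 1

theorem dualIdeal_ne_zero : dualIdeal K ≠ 0 := FractionalIdeal.dual_ne_zero _ _ one_ne_zero

theorem absNorm_dualIdeal :
    ((FractionalIdeal.absNorm (dualIdeal K) : ℚ) : ℝ) = |(discr K : ℝ)|⁻¹ := by
  have h := coeIdeal_differentIdeal ℤ ℚ K (𝓞 K)
  rw [show FractionalIdeal.dual ℤ ℚ 1 = dualIdeal K from rfl, eq_comm, inv_eq_iff_eq_inv] at h
  rw [h, map_inv₀, FractionalIdeal.coeIdeal_absNorm, absNorm_differentIdeal K, Rat.cast_inv,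
    Rat.cast_natCast, Nat.cast_natAbs, Int.cast_abs]

theorem exists_int_trace {v : K} (hv : v ∈ dualIdeal K) (g : 𝓞 K) :
    ∃ m : ℤ, P.tr (P.emb v * P.emb (g : K)) = m := by
  obtain ⟨m, hm⟩ :=
    (FractionalIdeal.mem_dual (one_ne_zero (α := FractionalIdeal (𝓞 K)⁰ K))).1 hv (g : K)
    (FractionalIdeal.coe_mem_one _ g)
  refine ⟨m, ?_⟩
  rw [← map_mul, P.tr_emb, ← Algebra.traceForm_apply, ← hm, eq_intCast, Rat.cast_intCast]

/-- A nonzero integer carrying the inverse different into the integers. -/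
theorem exists_den : ∃ d : K, d ≠ 0 ∧ ∀ v ∈ dualIdeal K, IsIntegral ℤ (d * v) := by
  obtain ⟨a, ha, h⟩ := (dualIdeal K).2
  refine ⟨algebraMap (𝓞 K) K a, ?_, fun v hv => ?_⟩
  · exact (map_ne_zero_iff _ RingOfIntegers.coe_injective).2 (mem_nonZeroDivisors_iff_ne_zero.1 ha)
  · obtain ⟨b, hb⟩ := h v hv
    rw [← Algebra.smul_def, ← hb]
    exact RingOfIntegers.isIntegral_coe b

theorem exists_norm_lower : ∃ κ : ℝ, 0 < κ ∧ ∀ v ∈ dualIdeal K, v ≠ 0 →
    κ ≤ |((Algebra.norm ℚ v : ℚ) : ℝ)| := by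
  obtain ⟨d, hd, h⟩ := exists_den (K := K)
  have hN : (0 : ℝ) < |((Algebra.norm ℚ d : ℚ) : ℝ)| :=
    abs_pos.2 (Rat.cast_ne_zero.2 (Algebra.norm_ne_zero_iff.2 hd))
  refine ⟨|((Algebra.norm ℚ d : ℚ) : ℝ)|⁻¹, inv_pos.2 hN, fun v hv hv0 => ?_⟩
  obtain ⟨b, hb⟩ : ∃ b : 𝓞 K, (b : K) = d * v := ⟨⟨_, h v hv⟩, rfl⟩
  have hb0 : b ≠ 0 := fun e => mul_ne_zero hd hv0 (by rw [← hb, e]; rfl)
  have h1 : (1 : ℝ) ≤ |((Algebra.norm ℤ b : ℤ) : ℝ)| := by
    rw [← Int.cast_abs, ← Int.cast_one, Int.cast_le]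
    exact Int.one_le_abs (Algebra.norm_ne_zero_iff.2 hb0)
  rw [← Rat.cast_intCast, Algebra.coe_norm_int, hb, map_mul, Rat.cast_mul, abs_mul] at h1
  rwa [inv_le_iff_one_le_mul₀ hN, mul_comm]

theorem finite_dual_box (R : ℝ) :
    {v : K | v ∈ dualIdeal K ∧ P.w₁ v ≤ R ∧ P.w₂ v ≤ R}.Finite := by
  obtain ⟨d, hd, h⟩ := exists_den (K := K)
  have hfin := NumberField.Embeddings.finite_of_norm_le K ℂ ((P.w₁ d + P.w₂ d) * R)
  refine (hfin.preimage (mul_right_injective₀ hd).injOn).subset fun v hv => ⟨h v hv.1, fun φ => ?_⟩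
  have hR : 0 ≤ R := (apply_nonneg _ _).trans hv.2.1
  have h1 := apply_nonneg P.w₁ d
  have h2 := apply_nonneg P.w₂ d
  rw [← InfinitePlace.apply, map_mul]
  rcases P.all (InfinitePlace.mk φ) with e | e <;> rw [e]
  · exact mul_le_mul (le_add_of_nonneg_right h2) hv.2.1 (apply_nonneg _ _) (by positivity)
  · exact mul_le_mul (le_add_of_nonneg_left h1) hv.2.2 (apply_nonneg _ _) (by positivity)

variable (K) in
/-- Short vectors exist for boxes of this volume. -/
def boxConst : ℝ := 32 / Real.sqrt |(discr K : ℝ)|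

theorem boxConst_pos : 0 < boxConst K := by
  have := one_le_discr_abs (K := K)
  rw [boxConst]; positivity

theorem exists_short {X Y : ℝ} (hX : 0 < X) (hY : 0 < Y)
    (h : boxConst K ≤ X ^ mult P.w₁ * Y ^ mult P.w₂) :
    ∃ v ∈ dualIdeal K, v ≠ 0 ∧ P.w₁ v ≤ X ∧ P.w₂ v ≤ Y := by
  classical
  let f : InfinitePlace K → ℝ≥0 := fun w => if w = P.w₁ then X.toNNReal else Y.toNNReal
  obtain ⟨I, hI⟩ : ∃ I : (FractionalIdeal (𝓞 K)⁰ K)ˣ,
      (I : FractionalIdeal (𝓞 K)⁰ K) = dualIdeal K :=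
    ⟨Units.mk0 _ dualIdeal_ne_zero, rfl⟩
  have hlt : mixedEmbedding.minkowskiBound K I <
      MeasureTheory.volume (mixedEmbedding.convexBodyLT K f) := by
    rw [mixedEmbedding.convexBodyLT_volume, P.univ_eq, prod_pair P.ne,
      mixedEmbedding.minkowskiBound,
      mixedEmbedding.volume_fundamentalDomain_fractionalIdealLatticeBasis,
      mixedEmbedding.volume_fundamentalDomain_latticeBasis, hI,
      show f P.w₁ = X.toNNReal from if_pos rfl, show f P.w₂ = Y.toNNReal from if_neg P.ne.symm]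
    refine lt_of_lt_of_le ?_ (le_mul_of_one_le_left bot_le
      (ENNReal.one_le_coe_iff.2 (mixedEmbedding.one_le_convexBodyLTFactor K)))
    have e2 : (2 : ℝ≥0∞)⁻¹ ^ nrComplexPlaces K ≤ 1 := pow_le_one₀ zero_le (by norm_num)
    have e4 : (2 : ℝ≥0∞) ^ finrank ℝ (mixedEmbedding.mixedSpace K) ≤ 16 := by
      rw [mixedEmbedding.finrank]
      exact (pow_le_pow_right₀ (by norm_num) (finrank_le_four P)).trans (by norm_num)
    refine lt_of_le_of_lt (mul_le_mul' (mul_le_mul' le_rfl (mul_le_mul' e2 le_rfl)) e4) ?_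
    have hd := one_le_discr_abs (K := K)
    rw [one_mul, absNorm_dualIdeal]
    simp only [← ENNReal.ofReal_coe_nnreal, NNReal.coe_mul, NNReal.coe_pow,
      Real.coe_toNNReal _ hX.le, Real.coe_toNNReal _ hY.le, Real.coe_sqrt, coe_nnnorm]
    rw [show (16 : ℝ≥0∞) = ENNReal.ofReal 16 by simp, ← ENNReal.ofReal_mul (by positivity),
      ← ENNReal.ofReal_mul (by positivity), ENNReal.ofReal_lt_ofReal_iff (by positivity)]
    refine lt_of_lt_of_le ?_ h
    rw [boxConst, Int.norm_eq_abs]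
    generalize |(discr K : ℝ)| = D at hd ⊢
    have hS : 0 < Real.sqrt D := by positivity
    rw [lt_div_iff₀ hS, show D⁻¹ * Real.sqrt D * 16 * Real.sqrt D =
      D⁻¹ * (Real.sqrt D * Real.sqrt D) * 16 by ring, Real.mul_self_sqrt (by linarith),
      inv_mul_cancel₀ (by linarith)]
    norm_num
  obtain ⟨v, hv, hv0, hlt'⟩ := mixedEmbedding.exists_ne_zero_mem_ideal_lt K I hlt
  refine ⟨v, hI ▸ hv, hv0, (hlt' P.w₁).le.trans ?_, (hlt' P.w₂).le.trans ?_⟩
  · rw [show f P.w₁ = X.toNNReal from if_pos rfl, Real.coe_toNNReal _ hX.le]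
  · rw [show f P.w₂ = Y.toNNReal from if_neg P.ne.symm, Real.coe_toNNReal _ hY.le]

theorem exists_unit_large : ∃ ε : (𝓞 K)ˣ, 1 < P.w₁ (ε : K) ∧ P.w₂ (ε : K) < 1 := by
  obtain ⟨u, hu⟩ := NumberField.Units.dirichletUnitTheorem.exists_unit K P.w₂
  have h0 : 0 < P.w₁ (u : K) := InfinitePlace.pos_iff.2 (Units.coe_ne_zero u)
  have h1 : P.w₁ (u : K) < 1 := (Real.log_neg_iff h0).1 (hu _ P.ne)
  have hinv : ((u⁻¹ : (𝓞 K)ˣ) : K) = ((u : (𝓞 K)ˣ) : K)⁻¹ := by simp
  have hbig : 1 < P.w₁ ((u⁻¹ : (𝓞 K)ˣ) : K) := by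
    rw [hinv, map_inv₀]
    exact (one_lt_inv₀ h0).2 h1
  refine ⟨u⁻¹, hbig, ?_⟩
  by_contra! hle
  have hn := P.norm_eq ((u⁻¹ : (𝓞 K)ˣ) : K)
  rw [← Rat.cast_abs, NumberField.Units.norm, Rat.cast_one] at hn
  have := one_lt_pow₀ hbig (n := mult P.w₁) mult_ne_zero
  nlinarith [one_le_pow₀ hle (n := mult P.w₂)]

open scoped Classical in
/-- The projection of the mixed space. -/
def coord (w : InfinitePlace K) : mixedEmbedding.mixedSpace K →ₗ[ℝ] ℂ :=
  if h : IsReal w then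
    (Algebra.linearMap ℝ ℂ).comp ((LinearMap.proj ⟨w, h⟩).comp (LinearMap.fst ℝ _ _))
  else (LinearMap.proj ⟨w, not_isReal_iff_isComplex.1 h⟩).comp (LinearMap.snd ℝ _ _)

theorem coord_mixedEmbedding (w : InfinitePlace K) (x : K) :
    coord w (mixedEmbedding K x) = w.embedding x := by
  rw [coord]
  split_ifs with h
  · simp [mixedEmbedding.mixedEmbedding_apply_isReal, embedding_of_isReal_apply]
  · simp [mixedEmbedding.mixedEmbedding_apply_isComplex]

/-- The admissible first coordinates. -/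
def Admissible (s : ℂ) : Prop := IsReal P.w₁ → s.im = 0

theorem exists_reduce : ∃ R : ℝ, ∀ s : ℂ, P.Admissible s →
    ∃ g : 𝓞 K, ‖((s, 0) : ℂ × ℂ) - P.emb (g : K)‖ ≤ R := by
  classical
  obtain ⟨π, hπ⟩ : ∃ π : mixedEmbedding.mixedSpace K →ₗ[ℝ] ℂ × ℂ,
      π = (coord P.w₁).prod (coord P.w₂) := ⟨_, rfl⟩
  have hπe : ∀ x : K, π (mixedEmbedding K x) = P.emb x := fun x => by
    rw [hπ]
    exact Prod.ext (coord_mixedEmbedding _ _) (coord_mixedEmbedding _ _)
  obtain ⟨b, hb⟩ : ∃ b, b = mixedEmbedding.latticeBasis K := ⟨_, rfl⟩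
  refine ⟨∑ i, ‖π (b i)‖, fun s hs => ?_⟩
  obtain ⟨x, hx1, hx2⟩ : ∃ x, coord P.w₁ x = s ∧ coord P.w₂ x = 0 := by
    by_cases h : IsReal P.w₁
    · refine ⟨(Pi.single ⟨P.w₁, h⟩ s.re, 0), ?_, ?_⟩
      · rw [coord, dif_pos h]
        apply Complex.ext <;> simp [hs h]
      · rw [coord]
        split_ifs with h2
        · simp [Pi.single_eq_of_ne, Subtype.ext_iff, P.ne.symm]
        · simp
    · refine ⟨(0, Pi.single ⟨P.w₁, not_isReal_iff_isComplex.1 h⟩ s), ?_, ?_⟩
      · rw [coord, dif_neg h]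
        simp
      · rw [coord]
        split_ifs with h2
        · simp
        · simp [Pi.single_eq_of_ne, Subtype.ext_iff, P.ne.symm]
  obtain ⟨y, hy⟩ : ∃ y, y = ∑ i, (⌊b.repr x i⌋ : ℤ) • b i := ⟨_, rfl⟩
  have hymem : y ∈ Submodule.span ℤ (Set.range (mixedEmbedding.latticeBasis K)) := by
    rw [hy, ← hb]
    exact Submodule.sum_mem _ fun i _ => Submodule.smul_mem _ _ (Submodule.subset_span ⟨i, rfl⟩)
  rw [mixedEmbedding.mem_span_latticeBasis] at hymem
  obtain ⟨g, hg⟩ := hymem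
  refine ⟨g, ?_⟩
  rw [← hπe, show (s, 0) = π x by rw [hπ]; exact Prod.ext hx1.symm hx2.symm, ← map_sub,
    show mixedEmbedding K (g : K) = y from hg]
  have hxy : x - y = ∑ i, Int.fract (b.repr x i) • b i := by
    rw [hy]
    nth_rw 1 [← b.sum_repr x]
    rw [← sum_sub_distrib]
    refine sum_congr rfl fun i _ => ?_
    rw [← Int.cast_smul_eq_zsmul ℝ, ← sub_smul, Int.self_sub_floor]
  rw [hxy, map_sum]
  refine (norm_sum_le _ _).trans (sum_le_sum fun i _ => ?_)
  rw [map_smul, norm_smul, Real.norm_eq_abs, abs_of_nonneg (Int.fract_nonneg _)]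
  exact mul_le_of_le_one_left (norm_nonneg _) (Int.fract_lt_one _).le

end TwoPlaces

end FA.UnitRankOneEuclidean
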