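import Fermat.Agent.UnitRankOneEuclidean.Avoid
import Fermat.Agent.UnitRankOneEuclidean.Places

/-!
# Best vectors of the inverse different

At most `512` best vectors have first absolute value in a dyadic range: two in one cell at the first
place and one octant at the second have a difference beating the larger.
-/

set_option autoImplicit false
set_option linter.style.haveILetI false
set_option linter.unusedSectionVars false

noncomputable section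

namespace FA.UnitRankOneEuclidean

open NumberField NumberField.InfinitePlace Module Finset
open scoped nonZeroDivisors

theorem normSq_sub_lt {a b : ℂ} (h1 : (0 ≤ a.re) ↔ (0 ≤ b.re)) (h2 : (0 ≤ a.im) ↔ (0 ≤ b.im))
    (h3 : (|a.im| ≤ |a.re|) ↔ (|b.im| ≤ |b.re|)) (ha : a ≠ 0)
    (hab : Complex.normSq a ≤ Complex.normSq b) :
    Complex.normSq (b - a) < Complex.normSq b := by
  have hsame : ∀ x x' : ℝ, ((0 ≤ x) ↔ (0 ≤ x')) → x * x' = |x| * |x'| := by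
    intro x x' h
    rcases le_or_gt 0 x with hx | hx
    · rw [abs_of_nonneg hx, abs_of_nonneg (h.1 hx)]
    · rw [abs_of_neg hx, abs_of_neg (not_le.1 fun h' => absurd (h.2 h') (not_le.2 hx)), neg_mul_neg]
  have key : ∀ X Y X' Y' : ℝ, 0 ≤ X → 0 ≤ Y → 0 ≤ X' → 0 ≤ Y' → Y ≤ X → Y' ≤ X' →
      0 < X ^ 2 + Y ^ 2 → X ^ 2 + Y ^ 2 ≤ X' ^ 2 + Y' ^ 2 →
        X ^ 2 + Y ^ 2 < 2 * (X * X' + Y * Y') := by
    intro X Y X' Y' hX hY hX' hY' hYX hYX' hpos hle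
    have hX2 : X ^ 2 + Y ^ 2 ≤ 2 * X ^ 2 := by nlinarith
    have hX2' : X ^ 2 + Y ^ 2 ≤ 2 * X' ^ 2 := by nlinarith
    have hA : X ^ 2 + Y ^ 2 ≤ 2 * X * X' := by
      refine le_of_pow_le_pow_left₀ two_ne_zero (by positivity) ?_
      have := mul_le_mul hX2 hX2' (by positivity) (by positivity)
      linarith
    by_contra! hcon
    have hYY : Y * Y' = 0 := le_antisymm (by linarith) (mul_nonneg hY hY')
    rcases mul_eq_zero.1 hYY with h0 | h0
    · subst h0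
      have hX0 : 0 < X := by nlinarith
      have e : X = 2 * X' := by nlinarith
      nlinarith
    · subst h0
      have e : 2 * X * X' = X ^ 2 + Y ^ 2 := by linarith
      have h' := mul_le_mul hX2 (show X ^ 2 + Y ^ 2 ≤ X' ^ 2 by linarith) (by positivity)
        (by positivity)
      nlinarith
  have hsq : ∀ x : ℝ, x * x = |x| ^ 2 := fun x => by rw [sq_abs, sq]
  have hpos := Complex.normSq_pos.2 ha
  rw [Complex.normSq_apply, hsq a.re, hsq a.im] at hpos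
  rw [Complex.normSq_apply, Complex.normSq_apply, hsq a.re, hsq a.im, hsq b.re, hsq b.im] at hab
  have hgoal : |a.re| ^ 2 + |a.im| ^ 2 < 2 * (|a.re| * |b.re| + |a.im| * |b.im|) := by
    rcases le_or_gt |a.im| |a.re| with h | h
    · exact key _ _ _ _ (abs_nonneg _) (abs_nonneg _) (abs_nonneg _) (abs_nonneg _) h (h3.1 h)
        hpos hab
    · have h' : |b.re| ≤ |b.im| := (le_total _ _).resolve_right fun hh =>
        absurd (h3.2 hh) (not_le.2 h)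
      have := key |a.im| |a.re| |b.im| |b.re| (abs_nonneg _) (abs_nonneg _) (abs_nonneg _)
        (abs_nonneg _) h.le h' (by linarith) (by linarith)
      linarith
  rw [← hsame _ _ h1, ← hsame _ _ h2, ← hsq, ← hsq] at hgoal
  simp only [Complex.normSq_apply, Complex.sub_re, Complex.sub_im]
  linarith

namespace TwoPlaces

variable {K : Type*} [Field K] [NumberField K] (P : TwoPlaces K)

/-- No element of the inverse different is smaller at both places. -/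
def IsBest (v : K) : Prop :=
  v ∈ dualIdeal K ∧ v ≠ 0 ∧
    ∀ u ∈ dualIdeal K, u ≠ 0 → P.w₁ u ≤ P.w₁ v → P.w₂ v ≤ P.w₂ u

theorem mem_dualIdeal_mul (x : 𝓞 K) {v : K} (hv : v ∈ dualIdeal K) :
    (x : K) * v ∈ dualIdeal K := by
  have := Submodule.smul_mem ((dualIdeal K : FractionalIdeal (𝓞 K)⁰ K) : Submodule (𝓞 K) K) x hv
  rwa [Algebra.smul_def] at this

theorem IsBest.unit_mul {v : K} (hv : P.IsBest v) (u : (𝓞 K)ˣ) : P.IsBest ((u : K) * v) := by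
  obtain ⟨hv1, hv2, hv3⟩ := hv
  have hu : (u : K) ≠ 0 := Units.coe_ne_zero u
  have hinv : ((u⁻¹ : (𝓞 K)ˣ) : K) * (u : K) = 1 := by simp [hu]
  have h1 : 0 < P.w₁ ((u⁻¹ : (𝓞 K)ˣ) : K) := InfinitePlace.pos_iff.2 (Units.coe_ne_zero _)
  refine ⟨mem_dualIdeal_mul _ hv1, mul_ne_zero hu hv2, fun x hx hx0 hle => ?_⟩
  have h := hv3 _ (mem_dualIdeal_mul ((u⁻¹ : (𝓞 K)ˣ) : 𝓞 K) hx)
    (mul_ne_zero (Units.coe_ne_zero _) hx0) (by
      have := mul_le_mul_of_nonneg_left hle h1.le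
      rwa [← map_mul, ← map_mul, ← mul_assoc, hinv, one_mul] at this)
  have h' := mul_le_mul_of_nonneg_left h (apply_nonneg P.w₂ (u : K))
  rwa [← map_mul, ← map_mul, ← mul_assoc, mul_comm (u : K) ((u⁻¹ : (𝓞 K)ˣ) : K), hinv, one_mul]
    at h'

theorem exists_scale : ∃ X₀ : ℝ, 1 ≤ X₀ ∧ ∀ X, X₀ ≤ X → ∃ v : K, P.IsBest v ∧ P.w₁ v ≤ X ∧
    1 ≤ P.w₁ v ∧ P.w₂ v ≤ 1 ∧
      ∀ Y : ℝ, 0 < Y → boxConst K ≤ X ^ mult P.w₁ * Y ^ mult P.w₂ → P.w₂ v ≤ Y := by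
  classical
  obtain ⟨κ, hκ, hlow⟩ := exists_norm_lower (K := K)
  obtain ⟨η, hη⟩ : ∃ η, η = min 1 κ := ⟨_, rfl⟩
  have hη0 : 0 < η := hη ▸ lt_min one_pos hκ
  have hη1 : η ≤ 1 := hη ▸ min_le_left _ _
  obtain ⟨X₀, hX₀⟩ : ∃ X₀, X₀ = max 1 (boxConst K / η ^ mult P.w₂) := ⟨_, rfl⟩
  refine ⟨X₀, hX₀ ▸ le_max_left _ _, fun X hX => ?_⟩
  have hX1 : 1 ≤ X := (hX₀ ▸ le_max_left _ _).trans hX
  have hX2 : boxConst K / η ^ mult P.w₂ ≤ X := (hX₀ ▸ le_max_right _ _).trans hX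
  have hX0 : 0 < X := one_pos.trans_le hX1
  obtain ⟨v₀, hv₀, hv₀0, hv₀1, hv₀2⟩ := P.exists_short hX0 hη0 (by
    rw [div_le_iff₀ (by positivity)] at hX2
    exact hX2.trans (mul_le_mul_of_nonneg_right (le_self_pow₀ hX1 mult_ne_zero) (by positivity)))
  obtain ⟨S, hS⟩ : ∃ S : Finset K, S = (P.finite_dual_box (max X η)).toFinset.filter fun v =>
      v ≠ 0 ∧ P.w₁ v ≤ X ∧ P.w₂ v ≤ η := ⟨_, rfl⟩
  have hmem : ∀ v : K, v ∈ S ↔ v ∈ dualIdeal K ∧ v ≠ 0 ∧ P.w₁ v ≤ X ∧ P.w₂ v ≤ η := fun v => by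
    rw [hS, mem_filter, Set.Finite.mem_toFinset, Set.mem_ofPred_eq]
    exact ⟨fun h => ⟨h.1.1, h.2⟩, fun h => ⟨⟨h.1, h.2.2.1.trans (le_max_left _ _),
      h.2.2.2.trans (le_max_right _ _)⟩, h.2⟩⟩
  obtain ⟨v, hv, hmin⟩ := S.exists_min_image (fun v => P.w₂ v)
    ⟨v₀, (hmem v₀).2 ⟨hv₀, hv₀0, hv₀1, hv₀2⟩⟩
  obtain ⟨hvI, hv0, hv1, hv2⟩ := (hmem v).1 hv
  have hbest : P.IsBest v := ⟨hvI, hv0, fun u hu hu0 hle => by
    by_contra! hlt
    exact absurd (hmin u ((hmem u).2 ⟨hu, hu0, hle.trans hv1, hlt.le.trans hv2⟩)) (not_le.2 hlt)⟩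
  refine ⟨v, hbest, hv1, ?_, hv2.trans hη1, fun Y hY hQ => ?_⟩
  · by_contra! hlt
    have h1 : P.w₁ v ^ mult P.w₁ < 1 := pow_lt_one₀ (apply_nonneg _ _) hlt mult_ne_zero
    have h2 : P.w₂ v ^ mult P.w₂ ≤ κ :=
      (pow_le_of_le_one (apply_nonneg _ _) (hv2.trans hη1) mult_ne_zero).trans
        (hv2.trans (hη ▸ min_le_right _ _))
    have h3 := hlow v hvI hv0
    rw [← P.norm_eq] at h3
    nlinarith [pow_nonneg (apply_nonneg P.w₁ v) (mult P.w₁)]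
  · obtain ⟨u, hu, hu0, hu1, hu2⟩ := P.exists_short hX0 hY hQ
    by_contra! hlt
    exact absurd (hmin u ((hmem u).2 ⟨hu, hu0, hu1, (hu2.trans hlt.le).trans hv2⟩))
      (not_le.2 (hu2.trans_lt hlt))

/-- The frequencies. -/
def bestFreq : Set ℂ := {c | 1 ≤ ‖c‖ ∧ ∃ v : K, P.IsBest v ∧ (P.emb v).1 = c}

/-- The cell at the first place and the octant at the second. -/
def cls (Z : ℝ) (v : K) : (Bool × Bool × Bool) × (ℤ × ℤ) :=
  ((decide (0 ≤ (P.emb v).2.re), decide (0 ≤ (P.emb v).2.im),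
    decide (|(P.emb v).2.im| ≤ |(P.emb v).2.re|)),
    (⌊2 * (P.emb v).1.re / Z⌋, ⌊2 * (P.emb v).1.im / Z⌋))

theorem eq_of_best {v v' : K} {Z : ℝ} (hv : P.IsBest v) (hv' : P.IsBest v')
    (h : Z ≤ P.w₁ v) (h' : Z ≤ P.w₁ v') (hZ : 0 < Z) (hc : P.cls Z v = P.cls Z v') : v = v' := by
  wlog hle : P.w₂ v ≤ P.w₂ v' generalizing v v' with H
  · exact (H hv' hv h' h hc.symm (le_of_not_ge hle)).symm
  by_contra hne
  simp only [cls, Prod.mk.injEq, decide_eq_decide] at hc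
  obtain ⟨⟨h1, h2, h3⟩, h4, h5⟩ := hc
  have hd : v' - v ≠ 0 := sub_ne_zero.2 (Ne.symm hne)
  have hcell : ∀ x y : ℝ, ⌊2 * x / Z⌋ = ⌊2 * y / Z⌋ → |y - x| < Z / 2 := by
    intro x y e
    have a1 := Int.floor_le (2 * x / Z)
    have a2 := Int.lt_floor_add_one (2 * x / Z)
    have b1 := Int.floor_le (2 * y / Z)
    have b2 := Int.lt_floor_add_one (2 * y / Z)
    rw [← e] at b1 b2
    rw [le_div_iff₀ hZ] at a1 b1
    rw [div_lt_iff₀ hZ] at a2 b2
    rw [abs_lt]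
    constructor <;> linarith
  have hd1 : P.w₁ (v' - v) < Z := by
    rw [← P.norm_emb_fst]
    refine (Complex.norm_le_abs_re_add_abs_im _).trans_lt ?_
    rw [map_sub, Prod.fst_sub, Complex.sub_re, Complex.sub_im]
    linarith [hcell _ _ h4, hcell _ _ h5]
  have hd2 := hv'.2.2 _
    (Submodule.sub_mem ((dualIdeal K : FractionalIdeal (𝓞 K)⁰ K) : Submodule (𝓞 K) K)
    hv'.1 hv.1) hd (hd1.le.trans h')
  rw [← P.norm_emb_snd, ← P.norm_emb_snd] at hd2 hle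
  rw [map_sub, Prod.snd_sub] at hd2
  have hlt := normSq_sub_lt h1 h2 h3 (fun e => hv.2.1 (by
      have := P.norm_emb_snd v
      rw [e, norm_zero] at this
      exact (map_eq_zero P.w₂).1 this.symm))
    (by rw [Complex.normSq_eq_norm_sq, Complex.normSq_eq_norm_sq]
        exact pow_le_pow_left₀ (norm_nonneg _) hle 2)
  rw [Complex.normSq_eq_norm_sq, Complex.normSq_eq_norm_sq] at hlt
  exact absurd (pow_le_pow_left₀ (norm_nonneg _) hd2 2) (not_le.2 hlt)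

theorem sparse_bestFreq : Sparse P.bestFreq := by
  classical
  intro j
  let Q : (Bool × Bool × Bool) × (ℤ × ℤ) → ℂ → Prop := fun k c =>
    (2 : ℝ) ^ j ≤ ‖c‖ ∧ ∃ v : K, P.IsBest v ∧ (P.emb v).1 = c ∧ P.cls (2 ^ j) v = k
  let rep : (Bool × Bool × Bool) × (ℤ × ℤ) → ℂ := fun k =>
    if h : ∃ c, Q k c then h.choose else 0
  obtain ⟨B, hB⟩ : ∃ B : Finset ((Bool × Bool × Bool) × (ℤ × ℤ)),
      B = univ ×ˢ (Ico (-4 : ℤ) 4 ×ˢ Ico (-4 : ℤ) 4) := ⟨_, rfl⟩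
  refine ⟨B.image rep, ?_, fun c hc h1 h2 => ?_⟩
  · refine card_image_le.trans ?_
    rw [hB, card_product, card_product, Int.card_Ico, card_univ]
    simp [Fintype.card_prod]
  obtain ⟨-, v, hv, hvc⟩ := hc
  refine mem_image.2 ⟨P.cls (2 ^ j) v, ?_, ?_⟩
  · have hZ : (0 : ℝ) < 2 ^ j := by positivity
    have hb : ∀ x : ℝ, |x| < 2 * 2 ^ j → ⌊2 * x / 2 ^ j⌋ ∈ Ico (-4 : ℤ) 4 := by
      intro x hx
      rw [abs_lt] at hx
      rw [mem_Ico, Int.le_floor, Int.floor_lt, le_div_iff₀ hZ, div_lt_iff₀ hZ]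
      push_cast
      constructor <;> linarith
    rw [hB, mem_product, mem_product]
    rw [pow_succ'] at h2
    refine ⟨mem_univ _, hb _ ?_, hb _ ?_⟩ <;> rw [hvc]
    · exact (Complex.abs_re_le_norm c).trans_lt h2
    · exact (Complex.abs_im_le_norm c).trans_lt h2
  · have h : ∃ c', Q (P.cls (2 ^ j) v) c' := ⟨c, h1, v, hv, hvc, rfl⟩
    simp only [rep, dif_pos h]
    obtain ⟨g1, v', hv', hv'c, hcls⟩ := h.choose_spec
    rw [← hvc, ← hv'c]
    exact congrArg (fun u => (P.emb u).1) (P.eq_of_best (Z := 2 ^ j) hv' hv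
      (by rw [← P.norm_emb_fst, hv'c]; exact g1) (by rw [← P.norm_emb_fst, hvc]; exact h1)
      (by positivity) hcls)

end TwoPlaces

end FA.UnitRankOneEuclidean
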