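import Fermat.Agent.UnitRankOneEuclidean.Best
import Fermat.Agent.EuclideanLenstra.Criterion

/-!
# The inhomogeneous minimum in unit rank one

A point good at all large scales, two nearly congruent points of its orbit under a unit, and the
field element `g / (ε ^ N - 1)` shadowing the segment between them.
-/

set_option autoImplicit false
set_option linter.style.haveILetI false
set_option linter.unusedSectionVars false
set_option exponentiation.threshold 320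

noncomputable section

namespace FA.UnitRankOneEuclidean

open NumberField NumberField.InfinitePlace Module Finset Filter FA.LenstraEuclid
open scoped nonZeroDivisors Topology

namespace TwoPlaces

variable {K : Type*} [Field K] [NumberField K] (P : TwoPlaces K)

theorem units_coe_mul (u u' : (𝓞 K)ˣ) : ((u * u' : (𝓞 K)ˣ) : K) = (u : K) * (u' : K) := by simp

/-- The orbit of a point under a unit. -/
def orbit (ε : (𝓞 K)ˣ) (Q : ℂ × ℂ) (n : ℕ) : ℂ × ℂ := P.emb ((ε : K) ^ n) * Q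

/-- The orbit stays within a bounded distance of the integers. -/
def OrbitBounded (ε : (𝓞 K)ˣ) (Q : ℂ × ℂ) : Prop :=
  ∃ R : ℝ, ∀ n, ∃ g : 𝓞 K, ‖P.orbit ε Q n - P.emb (g : K)‖ ≤ R

theorem emb_mul_orbit (ε : (𝓞 K)ˣ) (β : ℂ × ℂ) (n i : ℕ) :
    P.emb ((ε : K) ^ i) * P.orbit ε β n = P.orbit ε β (n + i) := by
  rw [orbit, orbit, ← mul_assoc, ← map_mul, ← pow_add, add_comm i]

theorem admissible_orbit {ε : (𝓞 K)ˣ} {β : ℂ} (hβ : P.Admissible β) (n : ℕ) :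
    P.Admissible (P.orbit ε (β, 0) n).1 ∧ (P.orbit ε (β, 0) n).2 = 0 := by
  refine ⟨fun h => ?_, by simp [orbit]⟩
  have hre : (P.w₁.embedding ((ε : K) ^ n)).im = 0 := by
    rw [← embedding_of_isReal_apply h, Complex.ofReal_im]
  show (P.w₁.embedding ((ε : K) ^ n) * β).im = 0
  rw [Complex.mul_im, hre, hβ h]
  ring

theorem orbitBounded_axis (ε : (𝓞 K)ˣ) {β : ℂ} (hβ : P.Admissible β) :
    P.OrbitBounded ε (β, 0) := by
  obtain ⟨R, hR⟩ := P.exists_reduce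
  refine ⟨R, fun n => ?_⟩
  obtain ⟨h1, h2⟩ := P.admissible_orbit (ε := ε) hβ n
  obtain ⟨g, hg⟩ := hR _ h1
  exact ⟨g, by rwa [← h2] at hg⟩

theorem exists_good (ε : (𝓞 K)ˣ) (hε : 1 < P.w₁ (ε : K)) :
    ∃ β : ℂ, P.Admissible β ∧ ∀ (n : ℕ) (v : K), P.IsBest v → 1 ≤ P.w₁ v → ∀ m : ℤ,
      margin ≤ |P.tr (P.emb v * P.orbit ε (β, 0) n) - m| := by
  classical
  obtain ⟨β, hβ⟩ := exists_avoid P.sparse_bestFreq fun _ hc => hc.1
  obtain ⟨β', hβ'⟩ : ∃ β' : ℂ, β' = (if IsReal P.w₁ then (β.re : ℂ) else β) / (mult P.w₁ : ℂ) :=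
    ⟨_, rfl⟩
  refine ⟨β', fun h => ?_, fun n v hv h1 m => ?_⟩
  · rw [hβ', if_pos h, Complex.div_natCast_im, Complex.ofReal_im, zero_div]
  obtain ⟨u, hu⟩ : ∃ u, u = ((ε ^ n : (𝓞 K)ˣ) : K) * v := ⟨_, rfl⟩
  have hbest : P.IsBest u := hu ▸ IsBest.unit_mul P hv (ε ^ n)
  have hu' : u = (ε : K) ^ n * v := by simp [hu]
  have hmem : (P.emb u).1 ∈ P.bestFreq := by
    refine ⟨?_, u, hbest, rfl⟩
    rw [P.norm_emb_fst, hu', map_mul, map_pow]
    exact one_le_mul_of_one_le_of_one_le (one_le_pow₀ hε.le) h1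
  have e : P.tr (P.emb v * P.orbit ε (β', 0) n) = ((P.emb u).1 * β).re := by
    rw [orbit, ← mul_assoc, ← map_mul, mul_comm v, ← hu', tr]
    simp only [Prod.fst_mul, Prod.snd_mul, mul_zero, Complex.zero_re, add_zero, hβ',
      ← mul_div_assoc, Complex.div_natCast_re]
    rw [mul_div_cancel_left₀ _ mult_coe_ne_zero]
    split_ifs with h
    · have him : (P.emb u).1.im = 0 := by
        show (P.w₁.embedding u).im = 0
        rw [← embedding_of_isReal_apply h, Complex.ofReal_im]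
      simp [Complex.mul_re, him]
    · rfl
  rw [e]
  exact hβ _ hmem m

theorem exists_close {ε : (𝓞 K)ˣ} {β : ℂ × ℂ} (hβ : P.OrbitBounded ε β) {ρ : ℝ} (hρ : 0 < ρ) :
    ∃ n n' : ℕ, n < n' ∧ ∃ g : 𝓞 K, ‖P.orbit ε β n' - P.orbit ε β n - P.emb (g : K)‖ ≤ ρ := by
  obtain ⟨R, h⟩ := hβ
  choose g hg using h
  obtain ⟨a, -, φ, hφ, ha⟩ := tendsto_subseq_of_bounded
    (Metric.isBounded_closedBall (x := (0 : ℂ × ℂ)) (r := R))
    (x := fun n => P.orbit ε β n - P.emb (g n : K)) fun n => mem_closedBall_zero_iff.2 (hg n)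
  obtain ⟨M, hM⟩ := Metric.tendsto_atTop.1 ha (ρ / 2) (half_pos hρ)
  refine ⟨φ M, φ (M + 1), hφ (Nat.lt_succ_self M), g (φ (M + 1)) - g (φ M), ?_⟩
  have h1 := hM M le_rfl
  have h2 := hM (M + 1) (Nat.le_succ M)
  simp only [Function.comp_apply, dist_eq_norm] at h1 h2
  rw [show ((g (φ (M + 1)) - g (φ M) : 𝓞 K) : K) = (g (φ (M + 1)) : K) - (g (φ M) : K) from rfl,
    map_sub]
  calc ‖P.orbit ε β (φ (M + 1)) - P.orbit ε β (φ M) -
        (P.emb (g (φ (M + 1)) : K) - P.emb (g (φ M) : K))‖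
      = ‖(P.orbit ε β (φ (M + 1)) - P.emb (g (φ (M + 1)) : K) - a) -
          (P.orbit ε β (φ M) - P.emb (g (φ M) : K) - a)‖ := by congr 1; abel
    _ ≤ ρ := (norm_sub_le _ _).trans (by linarith)

theorem exists_periodic (ε : (𝓞 K)ˣ) (hA : 1 < P.w₁ (ε : K)) (hB : P.w₂ (ε : K) < 1)
    {β : ℂ × ℂ} (hβ : P.OrbitBounded ε β) {ρ : ℝ} (hρ : 0 < ρ) :
    ∃ (n N : ℕ) (G : 𝓞 K) (z : K), 0 < N ∧ (ε : K) ^ N * z = z + (G : K) ∧ ∀ i ≤ N,
      ‖(P.emb ((ε : K) ^ i * z) - P.orbit ε β (n + i)).1‖ ≤ ρ ∧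
      ‖(P.emb ((ε : K) ^ i * z) - P.orbit ε β (n + i)).2‖ ≤ ρ := by
  obtain ⟨A, hAd⟩ : ∃ A, A = P.w₁ (ε : K) := ⟨_, rfl⟩
  obtain ⟨B, hBd⟩ : ∃ B, B = P.w₂ (ε : K) := ⟨_, rfl⟩
  rw [← hAd] at hA
  rw [← hBd] at hB
  have hB0 : 0 ≤ B := hBd ▸ apply_nonneg _ _
  obtain ⟨ρ', hρ'⟩ : ∃ ρ', ρ' = ρ * min ((A - 1) / A) (1 - B) := ⟨_, rfl⟩
  have hρ'0 : 0 < ρ' :=
    hρ' ▸ mul_pos hρ (lt_min (div_pos (by linarith) (by linarith)) (by linarith))
  obtain ⟨n, n', hn, G, hG⟩ := P.exists_close (ε := ε) hβ hρ'0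
  obtain ⟨N, rfl⟩ : ∃ N, n' = n + N := ⟨n' - n, by omega⟩
  have hN : N ≠ 0 := by omega
  obtain ⟨η, hη⟩ : ∃ η : K, η = (ε : K) ^ N := ⟨_, rfl⟩
  have hη1 : η - 1 ≠ 0 := fun h => by
    rw [sub_eq_zero, hη] at h
    have h' := congrArg P.w₁ h
    rw [map_pow, map_one, ← hAd] at h'
    exact (one_lt_pow₀ hA hN).ne' h'
  obtain ⟨z, hz⟩ : ∃ z : K, z = (G : K) / (η - 1) := ⟨_, rfl⟩
  have hper : η * z = z + (G : K) := by
    have : (η - 1) * z = (G : K) := by rw [hz, mul_div_cancel₀ _ hη1]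
    linear_combination this
  refine ⟨n, N, G, z, by omega, hη ▸ hper, fun i hi => ?_⟩
  obtain ⟨r, hr⟩ : ∃ r, r = P.orbit ε β (n + N) - P.orbit ε β n - P.emb (G : K) := ⟨_, rfl⟩
  rw [← hr] at hG
  obtain ⟨d, hd⟩ : ∃ d, d = P.emb ((ε : K) ^ i * z) - P.orbit ε β (n + i) := ⟨_, rfl⟩
  rw [← hd]
  have heq : d * (P.emb η - 1) = -(P.emb ((ε : K) ^ i) * r) := by
    have h1 : P.emb η * P.orbit ε β n = P.orbit ε β (n + N) := hη ▸ P.emb_mul_orbit ε β n N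
    have h2 : P.emb η * P.emb z = P.emb z + P.emb (G : K) := by rw [← map_mul, hper, map_add]
    rw [hd, hr, map_mul, ← P.emb_mul_orbit ε β n i]
    linear_combination P.emb ((ε : K) ^ i) * h2 - P.emb ((ε : K) ^ i) * h1
  have hfst : ‖d.1‖ * ‖(P.emb η).1 - 1‖ = A ^ i * ‖r.1‖ := by
    have := congrArg (fun x : ℂ × ℂ => ‖x.1‖) heq
    simp only [Prod.fst_mul, Prod.fst_sub, Prod.fst_one, Prod.fst_neg, norm_neg, norm_mul] at this
    rwa [P.norm_emb_fst, map_pow, ← hAd] at this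
  have hsnd : ‖d.2‖ * ‖(P.emb η).2 - 1‖ = B ^ i * ‖r.2‖ := by
    have := congrArg (fun x : ℂ × ℂ => ‖x.2‖) heq
    simp only [Prod.snd_mul, Prod.snd_sub, Prod.snd_one, Prod.snd_neg, norm_neg, norm_mul] at this
    rwa [P.norm_emb_snd, map_pow, ← hBd] at this
  have hfη : A ^ N - 1 ≤ ‖(P.emb η).1 - 1‖ := by
    have := norm_sub_norm_le (P.emb η).1 1
    rwa [P.norm_emb_fst, hη, map_pow, ← hAd, norm_one, ← hη] at this
  have hsη : 1 - B ^ N ≤ ‖(P.emb η).2 - 1‖ := by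
    have := norm_sub_norm_le 1 (P.emb η).2
    rwa [P.norm_emb_snd, hη, map_pow, ← hBd, norm_one, ← hη, norm_sub_rev] at this
  have hr1 : ‖r.1‖ ≤ ρ * ((A - 1) / A) :=
    (norm_fst_le r).trans (hG.trans (hρ' ▸ mul_le_mul_of_nonneg_left (min_le_left _ _) hρ.le))
  have hr2 : ‖r.2‖ ≤ ρ * (1 - B) :=
    (norm_snd_le r).trans (hG.trans (hρ' ▸ mul_le_mul_of_nonneg_left (min_le_right _ _) hρ.le))
  constructor
  · have hAN : A ≤ A ^ N := le_self_pow₀ hA.le hN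
    refine le_of_mul_le_mul_right ?_ (show 0 < A ^ N - 1 by linarith)
    have h3 := mul_le_mul_of_nonneg_left hfη (norm_nonneg d.1)
    have h4 := mul_le_mul (pow_le_pow_right₀ hA.le hi) hr1 (norm_nonneg _) (by positivity)
    have h5 : A ^ N * (ρ * ((A - 1) / A)) ≤ ρ * (A ^ N - 1) := by
      rw [show A ^ N * (ρ * ((A - 1) / A)) = ρ * (A ^ N * (A - 1) / A) by ring]
      refine mul_le_mul_of_nonneg_left ?_ hρ.le
      rw [div_le_iff₀ (by linarith)]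
      linarith
    linarith
  · have hBN : B ^ N ≤ B := pow_le_of_le_one hB0 hB.le hN
    refine le_of_mul_le_mul_right ?_ (show 0 < 1 - B ^ N by linarith)
    have h3 := mul_le_mul_of_nonneg_left hsη (norm_nonneg d.2)
    have h4 := mul_le_mul (pow_le_one₀ hB0 hB.le : B ^ i ≤ 1) hr2 (norm_nonneg _) zero_le_one
    have h5 := mul_le_mul_of_nonneg_left (show 1 - B ≤ 1 - B ^ N by linarith) hρ.le
    linarith

theorem exists_period_mul {η : (𝓞 K)ˣ} {z : K} {G : 𝓞 K} (h : (η : K) * z = z + (G : K)) (q : ℤ) :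
    ∃ g : 𝓞 K, ((η ^ q : (𝓞 K)ˣ) : K) * z = z + (g : K) := by
  induction q with
  | zero => exact ⟨0, by simp⟩
  | succ i ih =>
    obtain ⟨g, hg⟩ := ih
    refine ⟨g + ((η ^ (i : ℤ) : (𝓞 K)ˣ) : 𝓞 K) * G, ?_⟩
    rw [zpow_add_one, units_coe_mul, mul_assoc, h, mul_add, hg]
    simp only [RingOfIntegers.coe_eq_algebraMap, map_add, map_mul]
    ring
  | pred i ih =>
    obtain ⟨g, hg⟩ := ih
    refine ⟨g - ((η ^ (-(i : ℤ)) * η⁻¹ : (𝓞 K)ˣ) : 𝓞 K) * G, ?_⟩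
    have hinv : ((η⁻¹ : (𝓞 K)ˣ) : K) * (η : K) = 1 := by
      rw [← units_coe_mul, inv_mul_cancel]; simp
    have h' : ((η⁻¹ : (𝓞 K)ˣ) : K) * z = z - ((η⁻¹ : (𝓞 K)ˣ) : K) * (G : K) := by
      linear_combination -((η⁻¹ : (𝓞 K)ˣ) : K) * h + z * hinv
    rw [zpow_sub_one, units_coe_mul, mul_assoc, h', mul_sub, hg]
    simp only [RingOfIntegers.coe_eq_algebraMap, map_sub, map_mul, Units.val_mul]
    ring

theorem exists_inhomogeneous (P : TwoPlaces K) : ∃ z : K, ∀ g : 𝓞 K,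
    Real.sqrt |(discr K : ℝ)| / 2 ^ 153 ≤ |((Algebra.norm ℚ (z - g) : ℚ) : ℝ)| := by
  obtain ⟨ε, hA, hB⟩ := P.exists_unit_large
  obtain ⟨β, hβ, hgood⟩ := P.exists_good ε hA
  obtain ⟨X₀, hX₀, hscale⟩ := P.exists_scale
  have hm : margin = 1 / 2 ^ 34 := by rw [margin]; norm_num
  have hm0 : 0 < margin := by rw [hm]; positivity
  obtain ⟨A, hAd⟩ : ∃ A, A = P.w₁ (ε : K) := ⟨_, rfl⟩
  have hA0 : 0 < A := hAd ▸ one_pos.trans hA
  have hAX : (0 : ℝ) < A * X₀ + 1 := by positivity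
  obtain ⟨n, N, G, z, hN, hper, hclose⟩ := P.exists_periodic ε hA hB (P.orbitBounded_axis ε hβ)
    (show 0 < margin / (4 * (A * X₀ + 1)) by positivity)
  have hsep : ∀ i ≤ N, ∀ X, X₀ ≤ X → X ≤ A * X₀ → ∃ v : K, P.w₁ v ≤ X ∧
      (∀ Y : ℝ, 0 < Y → boxConst K ≤ X ^ mult P.w₁ * Y ^ mult P.w₂ → P.w₂ v ≤ Y) ∧
      ∀ h : 𝓞 K, margin / 2 ≤ |P.tr (P.emb v * P.emb ((ε : K) ^ i * z + (h : K)))| := by
    intro i hi X hX hX'
    obtain ⟨v, hv, hv1, hge, hv2, hbox⟩ := hscale X hX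
    refine ⟨v, hv1, hbox, fun h => ?_⟩
    obtain ⟨d, hd⟩ : ∃ d, d = P.emb ((ε : K) ^ i * z) - P.orbit ε (β, 0) (n + i) := ⟨_, rfl⟩
    obtain ⟨hd1, hd2⟩ := hclose i hi
    rw [← hd] at hd1 hd2
    obtain ⟨m, hmh⟩ := P.exists_int_trace hv.1 h
    have hsmall : |P.tr (P.emb v * d)| ≤ margin / 2 := by
      refine (P.abs_tr_mul_le _ _).trans ?_
      rw [P.norm_emb_fst, P.norm_emb_snd]
      have h1 := mul_le_mul (hv1.trans hX') hd1 (norm_nonneg _) (by positivity)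
      have h2 := mul_le_mul hv2 hd2 (norm_nonneg _) zero_le_one
      have h3 : margin / 2 =
          2 * ((A * X₀ + 1) * (margin / (4 * (A * X₀ + 1)))) := by field_simp; ring
      rw [h3]
      linarith
    rw [map_add, show P.emb ((ε : K) ^ i * z) = P.orbit ε (β, 0) (n + i) + d by rw [hd]; abel,
      mul_add, mul_add, P.tr_add, P.tr_add, hmh]
    have := hgood (n + i) v hv hge (-m)
    push_cast at this
    have h4 := abs_sub (P.tr (P.emb v * P.orbit ε (β, 0) (n + i)) + P.tr (P.emb v * d) + (m : ℝ))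
      (P.tr (P.emb v * d))
    rw [show P.tr (P.emb v * P.orbit ε (β, 0) (n + i)) + P.tr (P.emb v * d) + (m : ℝ) -
      P.tr (P.emb v * d) = P.tr (P.emb v * P.orbit ε (β, 0) (n + i)) - -(m : ℝ) by ring] at h4
    linarith
  refine ⟨z, fun g => ?_⟩
  obtain ⟨w, hw⟩ : ∃ w, w = z - (g : K) := ⟨_, rfl⟩
  rw [← hw]
  have hw0 : w ≠ 0 := fun h0 => by
    obtain ⟨v, -, -, hv⟩ := hsep 0 (Nat.zero_le _) X₀ le_rfl
      (le_mul_of_one_le_left (by linarith) (hAd ▸ hA.le))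
    have := hv (-g)
    rw [pow_zero, one_mul, show ((-g : 𝓞 K) : K) = -(g : K) from rfl, ← sub_eq_add_neg, ← hw, h0,
      map_zero, mul_zero] at this
    simp [tr] at this
    linarith
  obtain ⟨Nw, hNw⟩ : ∃ Nw, Nw = |((Algebra.norm ℚ w : ℚ) : ℝ)| := ⟨_, rfl⟩
  have hNw0 : 0 < Nw := hNw ▸ abs_pos.2 (Rat.cast_ne_zero.2 (Algebra.norm_ne_zero_iff.2 hw0))
  rw [← hNw]
  have hQ := boxConst_pos (K := K)
  obtain ⟨L, hL⟩ : ∃ L, L = (boxConst K * Nw) ^ (((finrank ℚ K : ℕ) : ℝ))⁻¹ := ⟨_, rfl⟩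
  have hL0 : 0 < L := hL ▸ Real.rpow_pos_of_pos (mul_pos hQ hNw0) _
  have hLn : L ^ finrank ℚ K = boxConst K * Nw :=
    hL ▸ Real.rpow_inv_natCast_pow (mul_pos hQ hNw0).le finrank_pos.ne'
  have ha0 : 0 < P.w₁ w := InfinitePlace.pos_iff.2 hw0
  obtain ⟨x, hx⟩ : ∃ x, x = L / P.w₁ w / X₀ := ⟨_, rfl⟩
  have hX₀0 : 0 < X₀ := one_pos.trans_le hX₀
  have hx0 : 0 < x := hx ▸ by positivity
  obtain ⟨k, hk1, hk2⟩ := exists_mem_Ico_zpow hx0 (hAd ▸ hA : 1 < A)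
  obtain ⟨q, i, hi, hki⟩ : ∃ (q : ℤ) (i : ℕ), i ≤ N ∧ k = q * N + i := by
    refine ⟨k / N, (k % N).toNat, ?_, ?_⟩
    · have := Int.emod_lt_of_pos k (show (0 : ℤ) < N by omega)
      omega
    · rw [Int.toNat_of_nonneg (Int.emod_nonneg k (by omega))]
      exact (Int.mul_comm _ _ ▸ (Int.mul_ediv_add_emod k N).symm)
  obtain ⟨u, hu⟩ : ∃ u : (𝓞 K)ˣ, u = ε ^ k := ⟨_, rfl⟩
  obtain ⟨w', hw'⟩ : ∃ w', w' = (u : K) * w := ⟨_, rfl⟩
  have huA : P.w₁ (u : K) = A ^ k := by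
    rw [hu, Units.coe_zpow, map_zpow₀, hAd]
  have hak : 0 < A ^ k := zpow_pos hA0 k
  have hw'1 : P.w₁ w' = A ^ k * P.w₁ w := by rw [hw', map_mul, huA]
  have hw'0 : w' ≠ 0 := hw' ▸ mul_ne_zero (Units.coe_ne_zero u) hw0
  have ha' : 0 < P.w₁ w' := InfinitePlace.pos_iff.2 hw'0
  have hb' : 0 < P.w₂ w' := InfinitePlace.pos_iff.2 hw'0
  have hXeq : L / P.w₁ w' = x * X₀ / A ^ k := by
    rw [hw'1, hx, div_mul_cancel₀ _ hX₀0.ne', div_div, mul_comm]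
  have hXlo : X₀ ≤ L / P.w₁ w' := by
    rw [hXeq, le_div_iff₀ hak, mul_comm]
    exact mul_le_mul_of_nonneg_right hk1 hX₀0.le
  have hXhi : L / P.w₁ w' ≤ A * X₀ := by
    rw [hXeq, div_le_iff₀ hak, mul_right_comm]
    refine mul_le_mul_of_nonneg_right (hk2.le.trans_eq ?_) hX₀0.le
    rw [zpow_add_one₀ hA0.ne', mul_comm]
  obtain ⟨v, hv1, hv2, hv⟩ := hsep i hi _ hXlo hXhi
  have hv2' : P.w₂ v ≤ L / P.w₂ w' := by
    refine hv2 _ (div_pos hL0 hb') ?_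
    rw [div_pow, div_pow, div_mul_div_comm, ← pow_add, P.mult_add, P.norm_eq, hLn, hw', map_mul,
      Rat.cast_mul, abs_mul, ← Rat.cast_abs (Algebra.norm ℚ (u : K)), NumberField.Units.norm,
      Rat.cast_one, one_mul, ← hNw, mul_div_cancel_right₀ _ hNw0.ne']
  obtain ⟨h, hh⟩ : ∃ h : 𝓞 K, w' = (ε : K) ^ i * z + (h : K) := by
    obtain ⟨η, hη⟩ : ∃ η : (𝓞 K)ˣ, η = ε ^ N := ⟨_, rfl⟩
    have hη' : (η : K) * z = z + (G : K) := by
      rw [hη, ← hper]; simp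
    obtain ⟨gq, hgq⟩ := exists_period_mul hη' q
    refine ⟨((ε ^ i : (𝓞 K)ˣ) : 𝓞 K) * gq - (u : 𝓞 K) * g, ?_⟩
    have e : u = ε ^ i * η ^ q := by
      rw [hu, hki, hη, ← zpow_natCast ε N, ← zpow_mul, ← zpow_natCast ε i, ← zpow_add,
        mul_comm q, add_comm]
    rw [hw', hw, mul_sub,
      show (u : K) * z = (ε : K) ^ i * z + ((ε ^ i : (𝓞 K)ˣ) : K) * (gq : K) by
        rw [e, units_coe_mul, mul_assoc, hgq, mul_add]; simp]
    simp only [RingOfIntegers.coe_eq_algebraMap, map_sub, map_mul]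
    ring
  have hmain : margin / 8 ≤ L := by
    have h1 := hh ▸ hv h
    have h2 := h1.trans (P.abs_tr_mul_le _ _)
    rw [P.norm_emb_fst, P.norm_emb_fst, P.norm_emb_snd, P.norm_emb_snd] at h2
    have h3 := mul_le_mul_of_nonneg_right hv1 ha'.le
    have h4 := mul_le_mul_of_nonneg_right hv2' hb'.le
    rw [div_mul_cancel₀ _ ha'.ne'] at h3
    rw [div_mul_cancel₀ _ hb'.ne'] at h4
    linarith
  have h5 : (margin / 8) ^ 4 ≤ boxConst K * Nw := by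
    rw [← hLn]
    refine le_trans ?_ (pow_le_pow_left₀ (by positivity) hmain _)
    exact pow_le_pow_of_le_one (by positivity) (by rw [hm]; norm_num) (P.finrank_le_four)
  have hS : 0 < Real.sqrt |(discr K : ℝ)| := by
    have := one_le_discr_abs (K := K)
    positivity
  rw [boxConst, div_mul_eq_mul_div, le_div_iff₀ hS, hm] at h5
  rw [div_le_iff₀ (by positivity)]
  linarith

theorem abs_discr_le_of_normEuclidean (P : TwoPlaces K) (hE : IsNormEuclideanField K) :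
    |discr K| ≤ 2 ^ 306 := by
  by_contra! hlt
  obtain ⟨z, hz⟩ := exists_inhomogeneous P
  obtain ⟨g, hg⟩ := hE z
  have h1 : |((Algebra.norm ℚ (z - g) : ℚ) : ℝ)| < 1 := by exact_mod_cast hg
  have h2 : (2 : ℝ) ^ 153 ≤ Real.sqrt |(discr K : ℝ)| := by
    refine Real.le_sqrt_of_sq_le ?_
    rw [← pow_mul]
    exact_mod_cast hlt.le
  have h3 := (one_le_div₀ (by positivity)).2 h2
  linarith [hz g]

end TwoPlaces

end FA.UnitRankOneEuclidean
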